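/-
Programme MAZ (S15), Selmer core, brick UNR-G + (K1) (701, helper64): `J₀(N)(ℚ̄)` at a good prime.

`q` prime, `q ∤ N`, `A` a valuation subring of `ℚ̄` over `q`, `m` prime to `q`, `τ` in the inertia group
of `A`:

* **(UNR-G) `inertia_smul_eq_of_torsion`** : `m • x = 0 → τ • x = x`
  (`= ES/TOP/TorsionGalois12.inertia_smul_eq`, restated);
* **(K1) `inertia_smul_eq_of_division`** : `τ • (m • y) = m • y → τ • y = y`; in particular
  (`inertia_smul_eq_of_rational_multiple`) the `m`-division points of rational points are unramified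
  at `q`;
* the two specialisations to `m = r ^ k` (`r` prime `≠ q`): `inertia_fixes_torsion_pow`,
  `inertia_fixes_division_pow`;
* `hyp_unram` : the field `unram` of `MW/WeakMWAbs65.Hyp (JZero N) m S` for every `S` containing the
  primes dividing `N m`.

Everything comes from the unconditional contract `TorsionGalois12.sp` (a homomorphism
`Φ : J₀(N) →+ G`, inertia-invariant and injective on prime-to-`q` torsion).
-/
import Mathlib
import Fermat.Agent.ES.TOP.TorsionGalois12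

set_option autoImplicit false

namespace Fermat.Agent.MAZ.Unram64

open AlgebraicCurve ModularCurve Fermat.Agent.ES.TOP.TorsionGalois12 Fermat.Agent.ES.TOP.Skeleton8

local notation "Qb" => AlgebraicClosure ℚ

variable {N q : ℕ} [NeZero N]

/-- **(UNR-G)** `J₀(N)[m]` is unramified at `q ∤ N m`. -/
theorem inertia_smul_eq_of_torsion (hq : q.Prime) (hqN : ¬ q ∣ N) {A : ValuationSubring Qb}
    (hA : A.LiesOverPrime q) {m : ℕ} (hm : ¬ q ∣ m) {τ : Qb ≃ₐ[ℚ] Qb}
    (hτ : τ ∈ A.inertiaSubgroupIn ℚ) {x : JZero N} (hx : m • x = 0) : τ • x = x :=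
  inertia_smul_eq hq hqN hA hm hx hτ

/-- **(K1)** If `τ` (inertia at `q ∤ N m`) fixes `m • y` then it fixes `y`. -/
theorem inertia_smul_eq_of_division (hq : q.Prime) (hqN : ¬ q ∣ N) {A : ValuationSubring Qb}
    (hA : A.LiesOverPrime q) {m : ℕ} (hm : ¬ q ∣ m) {τ : Qb ≃ₐ[ℚ] Qb}
    (hτ : τ ∈ A.inertiaSubgroupIn ℚ) {y : JZero N} (hy : τ • (m • y) = m • y) : τ • y = y := by
  obtain ⟨G, _, Φ, h1, -, h3⟩ := sp N q hq hqN A hA
  rw [← sub_eq_zero]
  refine h3 m (τ • y - y) hm ?_ ?_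
  · have hc : m • (τ • y) = τ • (m • y) := (smul_nsmul_comm τ m y).symm
    rw [nsmul_sub, hc, hy, sub_self]
  · rw [map_sub, h1 τ hτ y, sub_self]

/-- **(K1)**, rational form: division points of rational points are unramified at `q ∤ N m`. -/
theorem inertia_smul_eq_of_rational_multiple (hq : q.Prime) (hqN : ¬ q ∣ N)
    {A : ValuationSubring Qb} (hA : A.LiesOverPrime q) {m : ℕ} (hm : ¬ q ∣ m) {y : JZero N}
    (hy : ∀ g : Qb ≃ₐ[ℚ] Qb, g • (m • y) = m • y) {τ : Qb ≃ₐ[ℚ] Qb}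
    (hτ : τ ∈ A.inertiaSubgroupIn ℚ) : τ • y = y :=
  inertia_smul_eq_of_division hq hqN hA hm hτ (hy τ)

/-! ### The case `m = r ^ k` -/

theorem not_dvd_pow {r : ℕ} (hq : q.Prime) (hr : r.Prime) (hqr : q ≠ r) (k : ℕ) : ¬ q ∣ r ^ k :=
  fun h => hqr ((Nat.prime_dvd_prime_iff_eq hq hr).1 (hq.dvd_of_dvd_pow h))

/-- **(UNR-G)** for `J₀(N)[r^k]`, `q ∤ N`, `q ≠ r`. -/
theorem inertia_fixes_torsion_pow {r : ℕ} (hq : q.Prime) (hr : r.Prime) (hqN : ¬ q ∣ N)
    (hqr : q ≠ r) {A : ValuationSubring Qb} (hA : A.LiesOverPrime q) (k : ℕ) :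
    ∀ σ ∈ A.inertiaSubgroupIn ℚ, ∀ y : JZero N, r ^ k • y = 0 → σ • y = y :=
  fun _ hσ _ hy => inertia_smul_eq_of_torsion hq hqN hA (not_dvd_pow hq hr hqr k) hσ hy

/-- **(K1)** for `r^k`-division points of rational points, `q ∤ N`, `q ≠ r`. -/
theorem inertia_fixes_division_pow {r : ℕ} (hq : q.Prime) (hr : r.Prime) (hqN : ¬ q ∣ N)
    (hqr : q ≠ r) {A : ValuationSubring Qb} (hA : A.LiesOverPrime q) (k : ℕ) :
    ∀ y : JZero N, (∀ g : Qb ≃ₐ[ℚ] Qb, g • (r ^ k • y) = r ^ k • y) →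
      ∀ σ ∈ A.inertiaSubgroupIn ℚ, σ • y = y :=
  fun _ hy _ hσ =>
    inertia_smul_eq_of_rational_multiple hq hqN hA (not_dvd_pow hq hr hqr k) hy hσ

/-- The `unram` field of `MW/WeakMWAbs65.Hyp (JZero N) m S`, for `S` containing the primes dividing
`N m`. -/
theorem hyp_unram (m : ℕ) (S : Finset Nat.Primes)
    (hS : ∀ q : Nat.Primes, (q : ℕ) ∣ N * m → q ∈ S) :
    ∀ q : Nat.Primes, q ∉ S → ∀ A : ValuationSubring Qb, A.LiesOverPrime (q : ℕ) →
      ∀ τ ∈ A.inertiaSubgroupIn ℚ, ∀ y : JZero N,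
        (∀ σ : Qb ≃ₐ[ℚ] Qb, σ • (m • y) = m • y) → τ • y = y := by
  intro q hqS A hA τ hτ y hy
  have hqNm : ¬ (q : ℕ) ∣ N * m := fun h => hqS (hS q h)
  exact inertia_smul_eq_of_rational_multiple q.2 (fun h => hqNm (h.mul_right m)) hA
    (fun h => hqNm (h.mul_left N)) hy hτ

end Fermat.Agent.MAZ.Unram64
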